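import Mathlib

set_option autoImplicit false

open UpperHalfPlane Derivative
open scoped MatrixGroups ModularForm Manifold

namespace Fermat.Agent.S22.PP

noncomputable section

lemma mdiff_iter {F : ℍ → ℂ} (hF : MDiff F) (m : ℕ) : MDiff (D^[m] F) := by
  induction m with
  | zero => simpa using hF
  | succ m ih =>
    rw [Function.iterate_succ_apply']
    exact normalizedDerivOfComplex_mdifferentiable ih

lemma iter_add {F G : ℍ → ℂ} (hF : MDiff F) (hG : MDiff G) (m : ℕ) :
    D^[m] (F + G) = D^[m] F + D^[m] G := by
  induction m with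
  | zero => rfl
  | succ m ih =>
    rw [Function.iterate_succ_apply', Function.iterate_succ_apply', Function.iterate_succ_apply', ih,
      normalizedDerivOfComplex_add _ _ (mdiff_iter hF m) (mdiff_iter hG m)]

lemma iter_smul {F : ℍ → ℂ} (hF : MDiff F) (c : ℂ) (m : ℕ) :
    D^[m] (c • F) = c • D^[m] F := by
  induction m with
  | zero => rfl
  | succ m ih =>
    rw [Function.iterate_succ_apply', Function.iterate_succ_apply', ih,
      normalizedDerivOfComplex_smul _ _ (mdiff_iter hF m)]

lemma iter_sub {F G : ℍ → ℂ} (hF : MDiff F) (hG : MDiff G) (m : ℕ) :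
    D^[m] (F - G) = D^[m] F - D^[m] G := by
  induction m with
  | zero => rfl
  | succ m ih =>
    rw [Function.iterate_succ_apply', Function.iterate_succ_apply', Function.iterate_succ_apply', ih,
      normalizedDerivOfComplex_sub _ _ (mdiff_iter hF m) (mdiff_iter hG m)]

lemma mdiff_smul {F : ℍ → ℂ} (hF : MDiff F) (c : ℂ) : MDiff (c • F) := by
  have := hF.const_smul c
  exact this

/-- Leibniz rule for multiplication by a function with constant derivative. -/
lemma iter_mul_linear {J : ℍ → ℂ} (hJ : MDiff J) {κ : ℂ} (hκ : D J = fun _ => κ)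
    {h : ℍ → ℂ} (hh : MDiff h) (m : ℕ) :
    D^[m + 1] (J * h) = J * D^[m + 1] h + (((m : ℂ) + 1) * κ) • D^[m] h := by
  induction m with
  | zero =>
    simp only [zero_add, Function.iterate_one, Function.iterate_zero, id_eq]
    rw [normalizedDerivOfComplex_mul _ _ hJ hh, hκ]
    ext τ
    simp
    ring
  | succ m ih =>
    rw [Function.iterate_succ_apply', ih,
      normalizedDerivOfComplex_add _ _ (hJ.mul (mdiff_iter hh (m + 1)))
        (mdiff_smul (mdiff_iter hh m) _),
      normalizedDerivOfComplex_mul _ _ hJ (mdiff_iter hh (m + 1)),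
      normalizedDerivOfComplex_smul _ _ (mdiff_iter hh m), hκ,
      ← Function.iterate_succ_apply' D, ← Function.iterate_succ_apply' D]
    ext τ
    simp
    ring

end

end Fermat.Agent.S22.PP
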