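import Fermat.Agent.S22.PP.Bol

set_option autoImplicit false

open UpperHalfPlane Derivative
open scoped MatrixGroups ModularForm Manifold Topology Real

namespace Fermat.Agent.S22.PP

noncomputable section

lemma D_of_hasDerivAt {G : ℂ → ℂ} {g' : ℂ} (τ : ℍ) (h : HasDerivAt G g' (τ : ℂ)) :
    D (fun z : ℍ => G z) τ = (2 * π * Complex.I)⁻¹ * g' := by
  have hcomp : ((fun z : ℍ => G z) ∘ ofComplex) =ᶠ[𝓝 (τ : ℂ)] G := by
    filter_upwards [isOpen_upperHalfPlaneSet.mem_nhds τ.im_pos] with w hw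
    simp [ofComplex_apply_of_im_pos hw]
  simp only [normalizedDerivOfComplex]
  rw [(h.congr_of_eventuallyEq hcomp).deriv]

lemma D_denom (g : GL (Fin 2) ℝ) :
    D (fun τ : ℍ => denom g τ) = fun _ => (2 * π * Complex.I)⁻¹ * (g 1 0 : ℂ) := by
  ext τ
  have hd : HasDerivAt (denom g ·) (g 1 0 : ℂ) (τ : ℂ) := by
    simpa [denom] using hasDerivAt_id _ |>.const_mul _ |>.add_const (g 1 1 : ℂ)
  exact D_of_hasDerivAt τ hd

lemma slash_pred (F : ℍ → ℂ) (k : ℤ) {g : GL (Fin 2) ℝ} (hg : 0 < g.val.det) :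
    F ∣[k - 1] g = (g.val.det : ℂ)⁻¹ • ((fun τ : ℍ => denom g τ) * F ∣[k] g) := by
  have hdet : g.det.val = g.val.det := Matrix.GeneralLinearGroup.val_det_apply g
  have hdetℂ : (g.val.det : ℂ) ≠ 0 := Complex.ofReal_ne_zero.mpr hg.ne'
  ext τ
  have hz := denom_ne_zero g τ
  simp only [ModularForm.slash_apply, Pi.smul_apply, Pi.mul_apply, smul_eq_mul, hdet, abs_of_pos hg]
  rw [show k - 1 - 1 = (k - 1) + (-1) by ring, show -(k - 1) = -k + 1 by ring,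
    zpow_add₀ hdetℂ, zpow_add₀ hz, zpow_one, zpow_neg_one]
  ring

/-- **Bol's identity.** -/
theorem bol {g : GL (Fin 2) ℝ} (hg : 0 < g.val.det) (n : ℕ) :
    ∀ {F : ℍ → ℂ}, MDiff F →
      D^[n + 1] (F ∣[-(n : ℤ)] g) =
        ((g.val.det : ℂ)⁻¹) ^ (n + 1) • ((D^[n + 1] F) ∣[(n : ℤ) + 2] g) := by
  have hdetℂ : (g.val.det : ℂ) ≠ 0 := Complex.ofReal_ne_zero.mpr hg.ne'
  induction n with
  | zero =>
    intro F hF
    simp only [zero_add, Function.iterate_one, Nat.cast_zero, neg_zero, pow_one]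
    rw [normalizedDerivOfComplex_slash hF hg]
    ext τ
    simp
  | succ n ih =>
    intro F hF
    set J : ℍ → ℂ := fun τ : ℍ => denom g τ with hJdef
    have hJ : MDiff J := mdifferentiable_denom g
    set h : ℍ → ℂ := F ∣[-(n : ℤ)] g with hh
    have hhd : MDiff h := hF.slash _ g
    set G : ℍ → ℂ := D^[n + 1] F with hG
    have hGd : MDiff G := mdiff_iter hF _
    have e1 : F ∣[-((n + 1 : ℕ) : ℤ)] g = (g.val.det : ℂ)⁻¹ • (J * h) := by
      rw [show -((n + 1 : ℕ) : ℤ) = -(n : ℤ) - 1 by push_cast; ring]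
      exact slash_pred F _ hg
    have e2 : D^[n + 1] h = ((g.val.det : ℂ)⁻¹) ^ (n + 1) • (G ∣[(n : ℤ) + 2] g) := ih hF
    have e3 : D^[n + 1 + 1] h = ((g.val.det : ℂ)⁻¹) ^ (n + 1) • D (G ∣[(n : ℤ) + 2] g) := by
      rw [Function.iterate_succ_apply', e2, normalizedDerivOfComplex_smul _ _ (hGd.slash _ g)]
    have e4 : (D G) ∣[(n : ℤ) + 2 + 2 - 1] g =
        (g.val.det : ℂ)⁻¹ • (J * (D G) ∣[(n : ℤ) + 2 + 2] g) := slash_pred _ _ hg
    rw [e1, iter_smul (hJ.mul hhd), iter_mul_linear hJ (D_denom g) hhd, e3, e2,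
      normalizedDerivOfComplex_slash hGd hg, Function.iterate_succ_apply' D (n + 1) F, ← hG,
      show (((n + 1 : ℕ) : ℤ) + 2) = (n : ℤ) + 2 + 2 - 1 by push_cast; ring, e4]
    ext τ
    have hz : J τ ≠ 0 := denom_ne_zero g τ
    simp only [Pi.smul_apply, Pi.add_apply, Pi.mul_apply, smul_eq_mul]
    have hJτ : denom g τ = J τ := rfl
    rw [hJτ]
    have hc : J τ * ((g 1 0 : ℂ) / J τ) = (g 1 0 : ℂ) := mul_div_cancel₀ _ hz
    push_cast
    linear_combination (-((g.val.det : ℂ)⁻¹ * ((g.val.det : ℂ)⁻¹) ^ (n + 1) * ((n : ℂ) + 2) *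
      (2 * π * Complex.I)⁻¹ * (G ∣[(n : ℤ) + 2] g) τ)) * hc

end

end Fermat.Agent.S22.PP
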