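import Fermat.Agent.S22.PP.IntMat

set_option autoImplicit false

open UpperHalfPlane Derivative Polynomial Function Matrix.SpecialLinearGroup
open scoped MatrixGroups ModularForm Manifold Topology Real

namespace Fermat.Agent.S22.PP

noncomputable section

variable (n : ℕ)

open Classical in
/-- chosen Eichler integral -/
def EIof (φ : ℍ → ℂ) : ℍ → ℂ := if h : ∃ Φ, IsEI n φ Φ then h.choose else 0

variable {n}

lemma EIof_spec {φ : ℍ → ℂ} (h : ∃ Φ, IsEI n φ Φ) : IsEI n φ (EIof n φ) := by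
  unfold EIof
  rw [dif_pos h]
  exact h.choose_spec

lemma EIof_eq {φ Φ : ℍ → ℂ} (h : IsEI n φ Φ) : EIof n φ = Φ :=
  (EIof_spec ⟨Φ, h⟩).unique h

variable (n)

/-- `φ` and all its `SL(2,ℤ)`-translates have Eichler integrals. -/
def Adm (φ : ℍ → ℂ) : Prop := ∀ γ : SL(2, ℤ), ∃ Φ, IsEI n (φ ∣[(n : ℤ) + 2] γ) Φ

/-- the period polynomial -/
def Q (φ : ℍ → ℂ) (γ : SL(2, ℤ)) : ℂ[X] :=
  invFun evalFun ((EIof n φ) ∣[-(n : ℤ)] γ - EIof n (φ ∣[(n : ℤ) + 2] γ))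

variable {n}

lemma sub_slash (k : ℤ) (g : GL (Fin 2) ℝ) (a b : ℍ → ℂ) :
    (a - b) ∣[k] g = a ∣[k] g - b ∣[k] g := by
  rw [sub_eq_add_neg, SlashAction.add_slash, SlashAction.neg_slash, ← sub_eq_add_neg]

lemma smul_slash_pos (k : ℤ) {g : GL (Fin 2) ℝ} (hg : 0 < g.val.det) (c : ℂ) (a : ℍ → ℂ) :
    (c • a) ∣[k] g = c • a ∣[k] g := by
  have hdet : g.det.val = g.val.det := Matrix.GeneralLinearGroup.val_det_apply g
  have hσ (x) : σ g x = x := by grind [σ, ContinuousAlgEquiv.refl_apply]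
  rw [ModularForm.smul_slash, hσ]

lemma SL_slash' (k : ℤ) (f : ℍ → ℂ) (γ : SL(2, ℤ)) : f ∣[k] γ = f ∣[k] (mapGL ℝ γ) := rfl

lemma det_mapGL_val (γ : SL(2, ℤ)) : (mapGL ℝ γ).val.det = 1 := by
  rw [(isInt_mapGL γ).det]; simp

namespace Adm

variable {φ ψ : ℍ → ℂ}

lemma self (h : Adm n φ) : ∃ Φ, IsEI n φ Φ := by
  simpa using h 1

lemma spec (h : Adm n φ) : IsEI n φ (EIof n φ) := EIof_spec h.self

lemma spec' (h : Adm n φ) (γ : SL(2, ℤ)) :
    IsEI n (φ ∣[(n : ℤ) + 2] γ) (EIof n (φ ∣[(n : ℤ) + 2] γ)) := EIof_spec (h γ)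

lemma slash (h : Adm n φ) (γ : SL(2, ℤ)) : Adm n (φ ∣[(n : ℤ) + 2] γ) := by
  intro γ'
  rw [← SlashAction.slash_mul]
  exact h _

lemma add (h : Adm n φ) (h' : Adm n ψ) : Adm n (φ + ψ) := by
  intro γ
  rw [SlashAction.add_slash]
  exact ⟨_, (h.spec' γ).add (h'.spec' γ)⟩

lemma smul (c : ℂ) (h : Adm n φ) : Adm n (c • φ) := by
  intro γ
  rw [ModularForm.SL_smul_slash]
  exact ⟨_, (h.spec' γ).smul c⟩

lemma zero' : Adm n 0 := by
  intro γ
  rw [SlashAction.zero_slash]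
  exact ⟨_, IsEI.zero'⟩

lemma sum {ι : Type*} (s : Finset ι) {φ : ι → ℍ → ℂ} (h : ∀ i ∈ s, Adm n (φ i)) :
    Adm n (∑ i ∈ s, φ i) := by
  intro γ
  rw [SlashAction.sum_slash]
  exact ⟨_, IsEI.sum s fun i hi => (h i hi).spec' γ⟩

lemma slash_good (h : Adm n φ) {g : GL (Fin 2) ℝ} (hg : Good g) : Adm n (φ ∣[(n : ℤ) + 2] g) := by
  intro γ
  obtain ⟨γ', δ, hδ, hc, e⟩ := (hg.mul (good_mapGL γ)).exists_decomp
  rw [SL_slash', ← SlashAction.slash_mul, e, SlashAction.slash_mul]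
  exact ⟨_, (h.spec' γ').slash_upper hδ.det_pos hc⟩

lemma Q_spec (h : Adm n φ) (γ : SL(2, ℤ)) : Q n φ γ ∈ degreeLT ℂ (n + 1) ∧
    evalFun (Q n φ γ) = (EIof n φ) ∣[-(n : ℤ)] γ - EIof n (φ ∣[(n : ℤ) + 2] γ) := by
  obtain ⟨p, hp, e⟩ := h.spec.exists_poly (g := mapGL ℝ γ) (by rw [det_mapGL_val]; exact one_pos)
    (h.spec' γ)
  rw [det_mapGL_val] at e
  simp only [Complex.ofReal_one, one_pow, one_smul] at e
  have e' : (EIof n φ) ∣[-(n : ℤ)] γ - EIof n (φ ∣[(n : ℤ) + 2] γ) = evalFun p := e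
  have : Q n φ γ = p := by
    unfold Q
    rw [e']
    exact leftInverse_invFun evalFun_injective p
  rw [this]
  exact ⟨hp, e'.symm⟩

lemma Q_mem (h : Adm n φ) (γ : SL(2, ℤ)) : Q n φ γ ∈ degreeLT ℂ (n + 1) := (h.Q_spec γ).1

lemma evalFun_Q (h : Adm n φ) (γ : SL(2, ℤ)) :
    evalFun (Q n φ γ) = (EIof n φ) ∣[-(n : ℤ)] γ - EIof n (φ ∣[(n : ℤ) + 2] γ) := (h.Q_spec γ).2

lemma EIof_add (h : Adm n φ) (h' : Adm n ψ) : EIof n (φ + ψ) = EIof n φ + EIof n ψ :=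
  EIof_eq (h.spec.add h'.spec)

lemma EIof_smul (c : ℂ) (h : Adm n φ) : EIof n (c • φ) = c • EIof n φ :=
  EIof_eq (h.spec.smul c)

lemma EIof_sum {ι : Type*} (s : Finset ι) {φ : ι → ℍ → ℂ} (h : ∀ i ∈ s, Adm n (φ i)) :
    EIof n (∑ i ∈ s, φ i) = ∑ i ∈ s, EIof n (φ i) :=
  EIof_eq (IsEI.sum s fun i hi => (h i hi).spec)

lemma Q_add (h : Adm n φ) (h' : Adm n ψ) (γ : SL(2, ℤ)) :
    Q n (φ + ψ) γ = Q n φ γ + Q n ψ γ := by
  apply evalFun_injective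
  rw [evalFun_add, (h.add h').evalFun_Q, h.evalFun_Q, h'.evalFun_Q, h.EIof_add h',
    SlashAction.add_slash, SlashAction.add_slash, (h.slash γ).EIof_add (h'.slash γ)]
  abel

lemma Q_smul (c : ℂ) (h : Adm n φ) (γ : SL(2, ℤ)) : Q n (c • φ) γ = c • Q n φ γ := by
  apply evalFun_injective
  rw [evalFun_smul, (h.smul c).evalFun_Q, h.evalFun_Q, h.EIof_smul,
    ModularForm.SL_smul_slash, ModularForm.SL_smul_slash, (h.slash γ).EIof_smul, smul_sub]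

lemma Q_sum {ι : Type*} (s : Finset ι) {φ : ι → ℍ → ℂ} (h : ∀ i ∈ s, Adm n (φ i))
    (γ : SL(2, ℤ)) : Q n (∑ i ∈ s, φ i) γ = ∑ i ∈ s, Q n (φ i) γ := by
  classical
  induction s using Finset.induction_on with
  | empty =>
    apply evalFun_injective
    simp only [Finset.sum_empty]
    rw [zero'.evalFun_Q, evalFun_zero, SlashAction.zero_slash, EIof_eq IsEI.zero',
      SlashAction.zero_slash, sub_self]
  | insert i t hi IH =>
    rw [Finset.sum_insert hi, Finset.sum_insert hi,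
      (h i (Finset.mem_insert_self _ _)).Q_add (sum t fun j hj => h j (Finset.mem_insert_of_mem hj)),
      IH fun j hj => h j (Finset.mem_insert_of_mem hj)]

/-- action of `SL(2,ℤ)` on polynomial functions -/
lemma _root_.Fermat.Agent.S22.PP.slash_evalFun_SL (γ : SL(2, ℤ)) {p : ℂ[X]}
    (hp : p ∈ degreeLT ℂ (n + 1)) :
    (evalFun p) ∣[-(n : ℤ)] γ = evalFun (polyAct n (γ : Matrix (Fin 2) (Fin 2) ℤ) p) := by
  have := slash_evalFun (isInt_mapGL γ) (by rw [det_mapGL_val]; exact one_pos) hp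
  rw [det_mapGL_val] at this
  simpa [SL_slash'] using this

/-- cocycle relation -/
lemma Q_mul (h : Adm n φ) (γ γ' : SL(2, ℤ)) :
    Q n φ (γ * γ') = polyAct n (γ' : Matrix (Fin 2) (Fin 2) ℤ) (Q n φ γ)
      + Q n (φ ∣[(n : ℤ) + 2] γ) γ' := by
  apply evalFun_injective
  rw [evalFun_add, ← slash_evalFun_SL γ' (h.Q_mem γ), h.evalFun_Q, h.evalFun_Q,
    (h.slash γ).evalFun_Q, SlashAction.slash_mul, SlashAction.slash_mul,
    SL_slash' _ (EIof n φ ∣[-(n : ℤ)] γ - EIof n (φ ∣[(n : ℤ) + 2] γ)) γ', sub_slash]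
  simp only [SL_slash']
  abel

lemma Q_one (h : Adm n φ) : Q n φ 1 = 0 := by
  apply evalFun_injective
  rw [h.evalFun_Q, evalFun_zero, SlashAction.slash_one, SlashAction.slash_one, sub_self]

lemma EIof_slash_upper (h : Adm n φ) {δ : GL (Fin 2) ℝ} (hδ : 0 < δ.val.det) (hc : δ 1 0 = 0) :
    EIof n (φ ∣[(n : ℤ) + 2] δ) = (δ.val.det : ℂ) ^ (n + 1) • (EIof n φ) ∣[-(n : ℤ)] δ :=
  EIof_eq (h.spec.slash_upper hδ hc)

/-- key relation for Hecke stability -/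
lemma Q_upper (h : Adm n φ) {δ δ' : GL (Fin 2) ℝ} (hδ : Good δ) (hc : δ 1 0 = 0)
    {B' : Matrix (Fin 2) (Fin 2) ℤ} (hB' : IsInt δ' B') (hδ' : 0 < δ'.val.det) (hc' : δ' 1 0 = 0)
    {γ γ' : SL(2, ℤ)} (e : δ * mapGL ℝ γ = mapGL ℝ γ' * δ') :
    Q n (φ ∣[(n : ℤ) + 2] δ) γ = polyAct n B' (Q n φ γ') := by
  have hdet : δ.val.det = δ'.val.det := by
    have := congrArg (fun g : GL (Fin 2) ℝ => g.val.det) e
    simp only [Matrix.GeneralLinearGroup.coe_mul, Matrix.det_mul, det_mapGL_val, mul_one,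
      one_mul] at this
    exact this
  apply evalFun_injective
  rw [(h.slash_good hδ).evalFun_Q, ← slash_evalFun hB' hδ' (h.Q_mem γ'), h.evalFun_Q,
    h.EIof_slash_upper hδ.det_pos hc, ModularForm.SL_smul_slash, SL_slash', SL_slash',
    ← SlashAction.slash_mul, ← SlashAction.slash_mul, e,
    SlashAction.slash_mul, SlashAction.slash_mul, sub_slash, smul_sub, hdet]
  congr 1
  exact (h.slash γ').EIof_slash_upper hδ' hc'

end Adm

end

end Fermat.Agent.S22.PP
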