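import Fermat.Agent.S22.PP.Prim

set_option autoImplicit false

open UpperHalfPlane Derivative Polynomial Function
open scoped MatrixGroups ModularForm Manifold Topology Real

namespace Fermat.Agent.S22.PP

noncomputable section

/-- `Φ` is the `(n+1)`-fold Eichler integral of `φ`. -/
structure IsEI (n : ℕ) (φ Φ : ℍ → ℂ) : Prop where
  mdiff : MDiff Φ
  zero : IsZeroAtImInfty Φ
  iter : D^[n + 1] Φ = φ

lemma exists_iter_primitive {h : ℝ} (hh : 0 < h) (m : ℕ) :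
    ∀ {φ : ℍ → ℂ}, IsPer h φ → ∃ Φ, IsPer h Φ ∧ D^[m] Φ = φ := by
  induction m with
  | zero => intro φ hφ; exact ⟨φ, hφ, rfl⟩
  | succ m ih =>
    intro φ hφ
    obtain ⟨Φ₁, h₁, e₁⟩ := exists_primitive hh hφ
    obtain ⟨Φ, h₂, e₂⟩ := ih h₁
    exact ⟨Φ, h₂, by rw [Function.iterate_succ_apply', e₂, e₁]⟩

lemma exists_EI {h : ℝ} (hh : 0 < h) (n : ℕ) {φ : ℍ → ℂ} (hφ : IsPer h φ) : ∃ Φ, IsEI n φ Φ := by
  obtain ⟨Φ, h₁, e₁⟩ := exists_iter_primitive hh (n + 1) hφ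
  exact ⟨Φ, h₁.mdiff, h₁.zero, e₁⟩

lemma isZero_sub {F G : ℍ → ℂ} (hF : IsZeroAtImInfty F) (hG : IsZeroAtImInfty G) :
    IsZeroAtImInfty (F - G) := by
  have : Filter.Tendsto (F - G) atImInfty (𝓝 (0 - 0)) := Filter.Tendsto.sub hF hG
  simpa [IsZeroAtImInfty, Filter.ZeroAtFilter] using this

lemma isZero_add {F G : ℍ → ℂ} (hF : IsZeroAtImInfty F) (hG : IsZeroAtImInfty G) :
    IsZeroAtImInfty (F + G) := by
  have : Filter.Tendsto (F + G) atImInfty (𝓝 (0 + 0)) := Filter.Tendsto.add hF hG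
  simpa [IsZeroAtImInfty, Filter.ZeroAtFilter] using this

lemma isZero_smul {F : ℍ → ℂ} (c : ℂ) (hF : IsZeroAtImInfty F) :
    IsZeroAtImInfty (c • F) := by
  have : Filter.Tendsto (c • F) atImInfty (𝓝 (c • 0)) := Filter.Tendsto.const_smul hF c
  simpa [IsZeroAtImInfty, Filter.ZeroAtFilter] using this

namespace IsEI

variable {n : ℕ} {φ ψ Φ Ψ : ℍ → ℂ}

lemma unique (h : IsEI n φ Φ) (h' : IsEI n φ Ψ) : Φ = Ψ := by
  have h0 : D^[n + 1] (Φ - Ψ) = 0 := by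
    rw [iter_sub h.mdiff h'.mdiff, h.iter, h'.iter, sub_self]
  obtain ⟨p, -, hp⟩ := poly_of_iter_eq_zero (n + 1) (h.mdiff.sub h'.mdiff) h0
  have hz : IsZeroAtImInfty (evalFun p) := hp ▸ isZero_sub h.zero h'.zero
  rw [eq_zero_of_isZeroAtImInfty hz, evalFun_zero] at hp
  exact sub_eq_zero.mp hp

lemma add (h : IsEI n φ Φ) (h' : IsEI n ψ Ψ) : IsEI n (φ + ψ) (Φ + Ψ) :=
  ⟨h.mdiff.add h'.mdiff, isZero_add h.zero h'.zero, by
    rw [iter_add h.mdiff h'.mdiff, h.iter, h'.iter]⟩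

lemma smul (c : ℂ) (h : IsEI n φ Φ) : IsEI n (c • φ) (c • Φ) :=
  ⟨mdiff_smul h.mdiff c, isZero_smul c h.zero, by rw [iter_smul h.mdiff, h.iter]⟩

lemma zero' : IsEI n 0 0 := by
  refine ⟨mdifferentiable_const, ?_, ?_⟩
  · exact Filter.zero_zeroAtFilter _
  · have := iter_smul (F := (0 : ℍ → ℂ)) mdifferentiable_const 0 (n + 1)
    simpa using this

lemma sum {ι : Type*} (s : Finset ι) {φ Φ : ι → ℍ → ℂ} (h : ∀ i ∈ s, IsEI n (φ i) (Φ i)) :
    IsEI n (∑ i ∈ s, φ i) (∑ i ∈ s, Φ i) := by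
  classical
  induction s using Finset.induction_on with
  | empty => simpa using zero'
  | insert i t hi IH =>
    rw [Finset.sum_insert hi, Finset.sum_insert hi]
    exact (h i (Finset.mem_insert_self _ _)).add
      (IH fun j hj => h j (Finset.mem_insert_of_mem hj))

/-- compatibility with upper triangular matrices -/
lemma slash_upper {g : GL (Fin 2) ℝ} (hg : 0 < g.val.det) (hc : g 1 0 = 0) (h : IsEI n φ Φ) :
    IsEI n (φ ∣[(n : ℤ) + 2] g) ((g.val.det : ℂ) ^ (n + 1) • Φ ∣[-(n : ℤ)] g) := by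
  have hdetℂ : (g.val.det : ℂ) ≠ 0 := Complex.ofReal_ne_zero.mpr hg.ne'
  refine ⟨mdiff_smul (h.mdiff.slash _ g) _, isZero_smul _ (h.zero.slash _ hc), ?_⟩
  rw [iter_smul (h.mdiff.slash _ g), bol hg n h.mdiff, h.iter, smul_smul, ← mul_pow,
    mul_inv_cancel₀ hdetℂ, one_pow, one_smul]

/-- the period polynomial -/
lemma exists_poly {g : GL (Fin 2) ℝ} (hg : 0 < g.val.det) (h : IsEI n φ Φ)
    (h' : IsEI n (φ ∣[(n : ℤ) + 2] g) Ψ) :
    ∃ p ∈ degreeLT ℂ (n + 1), (g.val.det : ℂ) ^ (n + 1) • Φ ∣[-(n : ℤ)] g - Ψ = evalFun p := by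
  have hdetℂ : (g.val.det : ℂ) ≠ 0 := Complex.ofReal_ne_zero.mpr hg.ne'
  refine poly_of_iter_eq_zero (n + 1) ((mdiff_smul (h.mdiff.slash _ g) _).sub h'.mdiff) ?_
  rw [iter_sub (mdiff_smul (h.mdiff.slash _ g) _) h'.mdiff, iter_smul (h.mdiff.slash _ g),
    bol hg n h.mdiff, h.iter, h'.iter, smul_smul, ← mul_pow,
    mul_inv_cancel₀ hdetℂ, one_pow, one_smul, sub_self]

end IsEI

end

end Fermat.Agent.S22.PP
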