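import Fermat.Agent.S22.PP.Lattice
import Fermat.Prelude.Def_CuspForm_HeckeAlgebra
import Fermat.Prelude.Thm_ModularForm_sturm_bound_Gamma0
import Fermat.Prelude.Thm_CongruenceSubgroup_one_mem_strictPeriods_Gamma0

set_option autoImplicit false

open UpperHalfPlane Derivative Polynomial Function Matrix.SpecialLinearGroup CongruenceSubgroup
open scoped MatrixGroups ModularForm Manifold Topology Real

namespace Fermat.Agent.S22.PP

noncomputable section

variable {N : ℕ} [NeZero N] {n : ℕ}

/-- a modular form of weight `≤ 0` on `Γ₀(N)` vanishing at `i∞` is zero -/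
lemma eq_zero_of_weight_nonpos {k : ℤ} (hk : k ≤ 0) (F : ModularForm (Gamma0 N) k)
    (hF : IsZeroAtImInfty ⇑F) : F = 0 := by
  apply ModularForm.sturm_bound_Gamma0 N F
  intro m hm
  have h0 : (k * ((Gamma0 N).index : ℤ)).toNat = 0 :=
    Int.toNat_of_nonpos (mul_nonpos_of_nonpos_of_nonneg hk (by positivity))
  rw [h0] at hm
  have hm0 : m = 0 := by omega
  subst hm0
  have h1 := CongruenceSubgroup.one_mem_strictPeriods_Gamma0 N
  rw [qExpansion_coeff_zero one_pos (ModularFormClass.analyticAt_cuspFunction_zero F one_pos h1)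
    (SlashInvariantFormClass.periodic_comp_ofComplex F h1)]
  exact hF.valueAtInfty_eq_zero

/-- Claim D: the lattice separates points. -/
lemma eq_zero_of_forall_Lam0 (f : CuspForm (Gamma0 N) ((n : ℤ) + 2))
    (h : ∀ l ∈ Lam0 N n, l f = 0) : f = 0 := by
  have hQ : ∀ γ : SL(2, ℤ), Q n (⇑f) γ = 0 := by
    intro γ
    ext i
    obtain ⟨l, hl, e⟩ := intVal_Q (N := N) (n := n) γ 1 i
    have := e f
    simp only [SlashAction.slash_one] at this
    rw [this, h l hl, coeff_zero]
  have hadm := adm_cusp f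
  have hE : ∀ γ : SL(2, ℤ), (EIof n ⇑f) ∣[-(n : ℤ)] γ = EIof n ((⇑f) ∣[(n : ℤ) + 2] γ) := by
    intro γ
    have := hadm.evalFun_Q γ
    rw [hQ γ, evalFun_zero] at this
    exact (sub_eq_zero.mp this.symm)
  let F : ModularForm (Gamma0 N) (-(n : ℤ)) :=
    { toFun := EIof n ⇑f
      slash_action_eq' := by
        rintro _ ⟨γ, hγ, rfl⟩
        have := hE γ
        rw [slash_Gamma0 f hγ] at this
        exact this
      holo' := hadm.spec.mdiff
      bdd_at_cusps' := by
        intro c hc
        rw [Subgroup.IsArithmetic.isCusp_iff_isCusp_SL2Z] at hc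
        rw [OnePoint.isBoundedAt_iff_forall_SL2Z hc]
        intro γ _
        have : (EIof n ⇑f) ∣[-(n : ℤ)] γ = EIof n ((⇑f) ∣[(n : ℤ) + 2] γ) := hE γ
        show IsBoundedAtImInfty ((EIof n ⇑f) ∣[-(n : ℤ)] γ)
        rw [this]
        exact (hadm.spec' γ).zero.isBoundedAtImInfty }
  have hF0 : F = 0 := eq_zero_of_weight_nonpos (by omega) F hadm.spec.zero
  have hE0 : EIof n ⇑f = 0 := congrArg (fun G : ModularForm (Gamma0 N) (-(n : ℤ)) => ⇑G) hF0
  have h2 := hadm.spec.iter
  rw [hE0] at h2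
  have h3 : D^[n + 1] (0 : ℍ → ℂ) = 0 := (IsEI.zero' (n := n)).iter
  rw [h3] at h2
  exact DFunLike.coe_injective h2.symm

lemma good_heckeMatrix {p : ℕ} (hp : p ≠ 0) (j : ℕ) : Good (ModularForm.heckeMatrix p j) := by
  refine ⟨!![1, (j : ℤ); 0, (p : ℤ)], ?_, ?_⟩
  · unfold IsInt
    rw [ModularForm.val_heckeMatrix hp]
    ext a b
    fin_cases a <;> fin_cases b <;> simp
  · rw [Matrix.det_fin_two_of]
    simp only [one_mul, mul_zero, sub_zero]
    exact_mod_cast Nat.pos_of_ne_zero hp

lemma good_heckeDiagMatrix {p : ℕ} (hp : p ≠ 0) : Good (ModularForm.heckeDiagMatrix p) := by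
  refine ⟨!![(p : ℤ), 0; 0, 1], ?_, ?_⟩
  · unfold IsInt
    rw [ModularForm.val_heckeDiagMatrix hp]
    ext a b
    fin_cases a <;> fin_cases b <;> simp
  · rw [Matrix.det_fin_two_of]
    simp only [mul_one, mul_zero, sub_zero]
    exact_mod_cast Nat.pos_of_ne_zero hp

lemma stable_of_mem_heckeAlgebra {S : Set ℕ}
    {t : Module.End ℂ (CuspForm (Gamma0 N) ((n : ℤ) + 2))}
    (ht : t ∈ CuspForm.heckeAlgebra N ((n : ℤ) + 2) S) :
    ∀ l ∈ Lam0 N n, l ∘ₗ t ∈ Lam0 N n := by
  unfold CuspForm.heckeAlgebra at ht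
  induction ht using Algebra.adjoin_induction with
  | mem x hx =>
    intro l hl
    rcases hx with ⟨ℓ, hℓ, hℓN, -, rfl⟩ | ⟨q, hqN, hq, -, rfl⟩
    · refine comp_mem_Lam0 (Finset.insertNone (Finset.range ℓ))
        (fun o => o.elim (ModularForm.heckeDiagMatrix ℓ) (ModularForm.heckeMatrix ℓ)) ?_ _ ?_ hl
      · intro o _
        cases o with
        | none => exact good_heckeDiagMatrix hℓ.ne_zero
        | some j => exact good_heckeMatrix hℓ.ne_zero j
      · intro f
        rw [CuspForm.coe_heckeTLin_apply, ModularForm.heckeT_def, Finset.sum_insertNone, add_comm]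
        rfl
    · refine comp_mem_Lam0 (Finset.range q) (ModularForm.heckeMatrix q) ?_ _ ?_ hl
      · intro j _
        exact good_heckeMatrix hq.ne_zero j
      · intro f
        rw [CuspForm.coe_heckeULin_apply, ModularForm.heckeU_def]
  | algebraMap r =>
    intro l hl
    have : l ∘ₗ (algebraMap ℤ (Module.End ℂ (CuspForm (Gamma0 N) ((n : ℤ) + 2))) r) = r • l := by
      ext f
      simp
    rw [this]
    exact Submodule.smul_mem _ _ hl
  | add x y _ _ hx hy =>
    intro l hl
    rw [LinearMap.comp_add]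
    exact add_mem (hx l hl) (hy l hl)
  | mul x y _ _ hx hy =>
    intro l hl
    have : l ∘ₗ (x * y) = (l ∘ₗ x) ∘ₗ y := rfl
    rw [this]
    exact hy _ (hx l hl)

/-- the embedding of the Hecke algebra into a finite power of the lattice -/
def embAux (S : Set ℕ) : CuspForm.heckeAlgebra N ((n : ℤ) + 2) S →+
    ((SL(2, ℤ) ⧸ Gamma0 N) × Fin (n + 1) → Lam0 N n) where
  toFun t := fun x => ⟨lam N n (x.1.out)⁻¹ ModularGroup.S x.2 ∘ₗ t.1,
    stable_of_mem_heckeAlgebra t.2 _ (Submodule.subset_span ⟨x, rfl⟩)⟩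
  map_zero' := by
    ext x
    simp
  map_add' t t' := by
    ext x
    simp [LinearMap.comp_add]

lemma embAux_injective (S : Set ℕ) : Function.Injective (embAux (N := N) (n := n) S) := by
  rw [injective_iff_map_eq_zero]
  intro t ht
  apply Subtype.ext
  ext1 f
  apply eq_zero_of_forall_Lam0
  intro l hl
  unfold Lam0 at hl
  induction hl using Submodule.span_induction with
  | mem y hy =>
    obtain ⟨x, rfl⟩ := hy
    have := congrArg Subtype.val (congrFun ht x)
    exact LinearMap.congr_fun this f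
  | zero => simp
  | add x y _ _ hx hy => rw [LinearMap.add_apply, hx, hy, add_zero]
  | smul a x _ hx => rw [LinearMap.smul_apply, hx, smul_zero]

theorem finite_of_weight_ge_two (N : ℕ) [NeZero N] (n : ℕ) (S : Set ℕ) :
    Module.Finite ℤ (CuspForm.heckeAlgebra N ((n : ℤ) + 2) S) := by
  haveI : IsNoetherian ℤ (Lam0 N n) := isNoetherian_of_fg_of_noetherian _ Lam0_fg
  exact Module.Finite.of_injective (embAux (N := N) (n := n) S).toIntLinearMap
    (embAux_injective S)

end

end Fermat.Agent.S22.PP
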