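import Fermat.Agent.S22.PP.EI

set_option autoImplicit false

open UpperHalfPlane Derivative Polynomial Function Matrix.SpecialLinearGroup
open scoped MatrixGroups ModularForm Manifold Topology Real

namespace Fermat.Agent.S22.PP

noncomputable section

/-- `g` has the integer entries given by `A`. -/
def IsInt (g : GL (Fin 2) ℝ) (A : Matrix (Fin 2) (Fin 2) ℤ) : Prop :=
  (g : Matrix (Fin 2) (Fin 2) ℝ) = A.map (Int.cast : ℤ → ℝ)

lemma IsInt.apply {g : GL (Fin 2) ℝ} {A : Matrix (Fin 2) (Fin 2) ℤ} (h : IsInt g A) (i j : Fin 2) :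
    g i j = (A i j : ℝ) := by
  have := congrFun (congrFun h i) j
  simpa using this

lemma IsInt.mul {g g' : GL (Fin 2) ℝ} {A A' : Matrix (Fin 2) (Fin 2) ℤ} (h : IsInt g A)
    (h' : IsInt g' A') : IsInt (g * g') (A * A') := by
  unfold IsInt at *
  rw [Matrix.GeneralLinearGroup.coe_mul, h, h']
  exact (Matrix.map_mul (f := Int.castRingHom ℝ)).symm

lemma IsInt.det {g : GL (Fin 2) ℝ} {A : Matrix (Fin 2) (Fin 2) ℤ} (h : IsInt g A) :
    g.val.det = (A.det : ℝ) := by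
  unfold IsInt at h
  rw [h]
  exact ((Int.castRingHom ℝ).map_det A).symm

lemma isInt_mapGL (γ : SL(2, ℤ)) : IsInt (mapGL ℝ γ) (γ : Matrix (Fin 2) (Fin 2) ℤ) := by
  unfold IsInt
  rw [mapGL_coe_matrix]
  rfl

/-- integer matrices of positive determinant -/
def Good (g : GL (Fin 2) ℝ) : Prop :=
  ∃ A : Matrix (Fin 2) (Fin 2) ℤ, IsInt g A ∧ 0 < A.det

lemma Good.det_pos {g : GL (Fin 2) ℝ} (h : Good g) : 0 < g.val.det := by
  obtain ⟨A, hA, hd⟩ := h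
  rw [hA.det]
  exact_mod_cast hd

lemma Good.mul {g g' : GL (Fin 2) ℝ} (h : Good g) (h' : Good g') : Good (g * g') := by
  obtain ⟨A, hA, hd⟩ := h
  obtain ⟨A', hA', hd'⟩ := h'
  exact ⟨A * A', hA.mul hA', by rw [Matrix.det_mul]; positivity⟩

lemma good_mapGL (γ : SL(2, ℤ)) : Good (mapGL ℝ γ) :=
  ⟨_, isInt_mapGL γ, by simp⟩

lemma exists_decomp_int {m : ℤ} (hm : m ≠ 0) (A : FixedDetMatrix (Fin 2) ℤ m) :
    ∃ (γ : SL(2, ℤ)) (B : FixedDetMatrix (Fin 2) ℤ m), B.1 1 0 = 0 ∧ A = γ • B := by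
  induction A using (FixedDetMatrices.induction_on hm) with
  | h0 A a1 _ _ _ => exact ⟨1, A, a1, by simp⟩
  | hS B hb =>
    obtain ⟨γ, B', h1, h2⟩ := hb
    exact ⟨ModularGroup.S * γ, B', h1, by rw [h2, mul_smul]⟩
  | hT B hb =>
    obtain ⟨γ, B', h1, h2⟩ := hb
    exact ⟨ModularGroup.T * γ, B', h1, by rw [h2, mul_smul]⟩

/-- Hermite decomposition. -/
lemma Good.exists_decomp {g : GL (Fin 2) ℝ} (h : Good g) :
    ∃ (γ : SL(2, ℤ)) (δ : GL (Fin 2) ℝ), Good δ ∧ δ 1 0 = 0 ∧ g = mapGL ℝ γ * δ := by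
  obtain ⟨A, hA, hd⟩ := h
  obtain ⟨m, hm⟩ : ∃ m, A.det = m := ⟨_, rfl⟩
  obtain ⟨γ, B, hB, hAB⟩ := exists_decomp_int (m := m) (hm ▸ hd.ne') ⟨A, hm⟩
  have hAB' : A = (γ : Matrix (Fin 2) (Fin 2) ℤ) * B.1 := by
    have := congrArg Subtype.val hAB
    simpa [FixedDetMatrices.smul_coe] using this
  have hδ : IsInt ((mapGL ℝ γ)⁻¹ * g) B.1 := by
    have h1 : IsInt ((mapGL ℝ γ)⁻¹ * g) ((γ⁻¹ : SL(2, ℤ)) * A) := by
      rw [← map_inv]
      exact (isInt_mapGL γ⁻¹).mul hA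
    have h2 : ((γ⁻¹ : SL(2, ℤ)) : Matrix (Fin 2) (Fin 2) ℤ) * A = B.1 := by
      rw [hAB', ← mul_assoc, ← Matrix.SpecialLinearGroup.coe_mul, inv_mul_cancel]
      simp
    rwa [h2] at h1
  refine ⟨γ, (mapGL ℝ γ)⁻¹ * g, ⟨B.1, hδ, by rw [B.2, ← hm]; exact hd⟩, ?_, by simp⟩
  rw [hδ.apply, hB]
  simp

/-- the integral polynomials `(aX+b)^j (cX+d)^(n-j)` -/
def wPoly (n : ℕ) (B : Matrix (Fin 2) (Fin 2) ℤ) (j : ℕ) : ℤ[X] :=
  (C (B 0 0) * X + C (B 0 1)) ^ j * (C (B 1 0) * X + C (B 1 1)) ^ (n - j)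

/-- weight `-n` action of an integral matrix on polynomials of degree `≤ n` -/
def polyAct (n : ℕ) (B : Matrix (Fin 2) (Fin 2) ℤ) (p : ℂ[X]) : ℂ[X] :=
  ∑ j ∈ Finset.range (n + 1), C (p.coeff j) * (wPoly n B j).map (Int.castRingHom ℂ)

lemma coeff_polyAct (n : ℕ) (B : Matrix (Fin 2) (Fin 2) ℤ) (p : ℂ[X]) (i : ℕ) :
    (polyAct n B p).coeff i =
      ∑ j ∈ Finset.range (n + 1), (((wPoly n B j).coeff i : ℤ) : ℂ) * p.coeff j := by
  unfold polyAct
  rw [finsetSum_coeff]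
  refine Finset.sum_congr rfl fun j _ => ?_
  rw [coeff_C_mul, coeff_map, mul_comm]
  simp

lemma natDegree_wPoly_le (n : ℕ) (B : Matrix (Fin 2) (Fin 2) ℤ) {j : ℕ} (hj : j ≤ n) :
    (wPoly n B j).natDegree ≤ n := by
  unfold wPoly
  have h1 : ∀ a b : ℤ, (C a * X + C b : ℤ[X]).natDegree ≤ 1 := fun a b =>
    natDegree_linear_le
  calc _ ≤ ((C (B 0 0) * X + C (B 0 1) : ℤ[X]) ^ j).natDegree +
        ((C (B 1 0) * X + C (B 1 1) : ℤ[X]) ^ (n - j)).natDegree := natDegree_mul_le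
    _ ≤ j * 1 + (n - j) * 1 := by
        gcongr
        · exact natDegree_pow_le_of_le _ (h1 _ _)
        · exact natDegree_pow_le_of_le _ (h1 _ _)
    _ = n := by omega

lemma polyAct_mem (n : ℕ) (B : Matrix (Fin 2) (Fin 2) ℤ) (p : ℂ[X]) :
    polyAct n B p ∈ degreeLT ℂ (n + 1) := by
  unfold polyAct
  refine Submodule.sum_mem _ fun j hj => ?_
  rw [← smul_eq_C_mul]
  refine Submodule.smul_mem _ _ ?_
  rw [mem_degreeLT]
  have hj' : j ≤ n := Nat.lt_succ_iff.mp (Finset.mem_range.mp hj)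
  have h1 : ((wPoly n B j).map (Int.castRingHom ℂ)).natDegree ≤ n :=
    natDegree_map_le.trans (natDegree_wPoly_le n B hj')
  refine lt_of_le_of_lt degree_le_natDegree ?_
  exact_mod_cast Nat.lt_succ_of_le h1

lemma natDegree_lt_of_mem {m : ℕ} {p : ℂ[X]} (hp : p ∈ degreeLT ℂ (m + 1)) :
    p.natDegree < m + 1 := by
  rcases eq_or_ne p 0 with rfl | hp0
  · simp
  · exact (natDegree_lt_iff_degree_lt hp0).mpr (mem_degreeLT.mp hp)

/-- the slash action on polynomial functions -/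
lemma slash_evalFun {n : ℕ} {g : GL (Fin 2) ℝ} {B : Matrix (Fin 2) (Fin 2) ℤ} (hB : IsInt g B)
    (hg : 0 < g.val.det) {p : ℂ[X]} (hp : p ∈ degreeLT ℂ (n + 1)) :
    (g.val.det : ℂ) ^ (n + 1) • (evalFun p) ∣[-(n : ℤ)] g = evalFun (polyAct n B p) := by
  have hdet : g.det.val = g.val.det := Matrix.GeneralLinearGroup.val_det_apply g
  have hdetℂ : (g.val.det : ℂ) ≠ 0 := Complex.ofReal_ne_zero.mpr hg.ne'
  have hσ (x) : σ g x = x := by grind [σ, ContinuousAlgEquiv.refl_apply]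
  ext τ
  have hz := denom_ne_zero g τ
  simp only [Pi.smul_apply, smul_eq_mul, ModularForm.slash_apply, hσ, hdet, abs_of_pos hg,
    evalFun_apply]
  rw [coe_smul_of_det_pos (by rwa [hdet]), eval_eq_sum_range' (natDegree_lt_of_mem hp)]
  unfold polyAct
  rw [eval_finsetSum, Finset.sum_mul, Finset.sum_mul, Finset.mul_sum]
  refine Finset.sum_congr rfl fun j hj => ?_
  have hj' : j ≤ n := Nat.lt_succ_iff.mp (Finset.mem_range.mp hj)
  have e1 : eval (τ : ℂ) ((wPoly n B j).map (Int.castRingHom ℂ)) =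
      num g τ ^ j * denom g τ ^ (n - j) := by
    simp [wPoly, num, denom, hB.apply]
  rw [eval_mul, eval_C, e1, neg_neg, zpow_natCast,
    show -(n : ℤ) - 1 = -((n + 1 : ℕ) : ℤ) by push_cast; ring, zpow_neg, zpow_natCast, div_pow]
  have e2 : denom g τ ^ n = denom g τ ^ j * denom g τ ^ (n - j) := by
    rw [← pow_add]; congr 1; omega
  rw [e2]
  field_simp

end

end Fermat.Agent.S22.PP
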