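import Fermat.Agent.S22.PP.Cocycle
import Fermat.Prelude.Thm_Subgroup_IsArithmetic_exists_nat_mem_strictPeriods_conj

set_option autoImplicit false

open UpperHalfPlane Derivative Polynomial Function Matrix.SpecialLinearGroup CongruenceSubgroup
open scoped MatrixGroups ModularForm Manifold Topology Real

namespace Fermat.Agent.S22.PP

noncomputable section

variable {N : ℕ} [NeZero N] {n : ℕ}

lemma adm_cusp (f : CuspForm (Gamma0 N) ((n : ℤ) + 2)) : Adm n ⇑f := by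
  intro γ
  obtain ⟨M, hM, hper⟩ := Subgroup.IsArithmetic.exists_nat_mem_strictPeriods_conj
    ((Gamma0 N : Subgroup SL(2, ℤ)) : Subgroup (GL (Fin 2) ℝ))
  have hM' : (0 : ℝ) < M := by exact_mod_cast hM
  refine exists_EI hM' n ⟨(CuspFormClass.holo f).slash _ _, ?_, CuspFormClass.zero_at_infty_slash f γ⟩
  have h1 := hper γ⁻¹
  rw [map_inv] at h1
  exact SlashInvariantFormClass.periodic_comp_ofComplex (CuspForm.translate f (mapGL ℝ γ)) h1

lemma slash_Gamma0 (f : CuspForm (Gamma0 N) ((n : ℤ) + 2)) {γ : SL(2, ℤ)} (hγ : γ ∈ Gamma0 N) :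
    (⇑f) ∣[(n : ℤ) + 2] γ = ⇑f :=
  SlashInvariantFormClass.slash_action_eq f (mapGL ℝ γ) ⟨γ, hγ, rfl⟩

/-- coefficient functionals of the period polynomials -/
def lam (N n : ℕ) [NeZero N] (γ₀ γ : SL(2, ℤ)) (j : ℕ) :
    CuspForm (Gamma0 N) ((n : ℤ) + 2) →ₗ[ℂ] ℂ where
  toFun f := (Q n ((⇑f) ∣[(n : ℤ) + 2] γ₀) γ).coeff j
  map_add' f g := by
    have : ⇑(f + g) = ⇑f + ⇑g := rfl
    rw [this, SlashAction.add_slash, ((adm_cusp f).slash γ₀).Q_add ((adm_cusp g).slash γ₀),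
      coeff_add]
  map_smul' c f := by
    have : ⇑(c • f) = c • ⇑f := rfl
    rw [this, ModularForm.SL_smul_slash, ((adm_cusp f).slash γ₀).Q_smul, coeff_smul]
    rfl

lemma lam_apply (γ₀ γ : SL(2, ℤ)) (j : ℕ) (f : CuspForm (Gamma0 N) ((n : ℤ) + 2)) :
    lam N n γ₀ γ j f = (Q n ((⇑f) ∣[(n : ℤ) + 2] γ₀) γ).coeff j := rfl

lemma lam_mul_left {γ₁ : SL(2, ℤ)} (hγ₁ : γ₁ ∈ Gamma0 N) (γ₀ γ : SL(2, ℤ)) (j : ℕ) :
    lam N n (γ₁ * γ₀) γ j = lam N n γ₀ γ j := by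
  ext f
  rw [lam_apply, lam_apply, SlashAction.slash_mul, slash_Gamma0 f hγ₁]

/-- the period lattice -/
def Lam0 (N n : ℕ) [NeZero N] : Submodule ℤ (CuspForm (Gamma0 N) ((n : ℤ) + 2) →ₗ[ℂ] ℂ) :=
  Submodule.span ℤ (Set.range fun x : (SL(2, ℤ) ⧸ Gamma0 N) × Fin (n + 1) =>
    lam N n (x.1.out)⁻¹ ModularGroup.S x.2)

lemma Lam0_fg : (Lam0 N n).FG := Submodule.fg_span (Set.finite_range _)

lemma lam_S_mem (γ₀ : SL(2, ℤ)) {j : ℕ} (hj : j < n + 1) :
    lam N n γ₀ ModularGroup.S j ∈ Lam0 N n := by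
  refine Submodule.subset_span ⟨(((γ₀⁻¹ : SL(2, ℤ)) : SL(2, ℤ) ⧸ Gamma0 N), ⟨j, hj⟩), ?_⟩
  obtain ⟨h, hh⟩ := QuotientGroup.mk_out_eq_mul (Gamma0 N) γ₀⁻¹
  simp only
  rw [hh, mul_inv_rev, inv_inv]
  exact lam_mul_left (inv_mem h.2) _ _ _

/-- polynomial-valued maps all of whose coefficient functionals lie in the lattice -/
def IntVal (Φ : CuspForm (Gamma0 N) ((n : ℤ) + 2) → ℂ[X]) : Prop :=
  ∀ i, ∃ l ∈ Lam0 N n, ∀ f, (Φ f).coeff i = l f

namespace IntVal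

variable {Φ Ψ : CuspForm (Gamma0 N) ((n : ℤ) + 2) → ℂ[X]}

lemma add (h : IntVal Φ) (h' : IntVal Ψ) : IntVal (fun f => Φ f + Ψ f) := by
  intro i
  obtain ⟨l, hl, e⟩ := h i
  obtain ⟨l', hl', e'⟩ := h' i
  exact ⟨l + l', add_mem hl hl', fun f => by rw [coeff_add, e, e']; rfl⟩

lemma neg (h : IntVal Φ) : IntVal (fun f => -Φ f) := by
  intro i
  obtain ⟨l, hl, e⟩ := h i
  exact ⟨-l, neg_mem hl, fun f => by rw [coeff_neg, e]; rfl⟩

lemma zero' : IntVal (fun _ : CuspForm (Gamma0 N) ((n : ℤ) + 2) => (0 : ℂ[X])) :=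
  fun _ => ⟨0, zero_mem _, fun _ => by simp⟩

lemma sum {ι : Type*} (s : Finset ι) {Φ : ι → CuspForm (Gamma0 N) ((n : ℤ) + 2) → ℂ[X]}
    (h : ∀ i ∈ s, IntVal (Φ i)) : IntVal (fun f => ∑ i ∈ s, Φ i f) := by
  classical
  induction s using Finset.induction_on with
  | empty => simpa using zero'
  | insert i t hi IH =>
    simp only [Finset.sum_insert hi]
    exact (h i (Finset.mem_insert_self _ _)).add (IH fun j hj => h j (Finset.mem_insert_of_mem hj))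

lemma polyAct (h : IntVal Φ) (B : Matrix (Fin 2) (Fin 2) ℤ) :
    IntVal (fun f => polyAct n B (Φ f)) := by
  intro i
  choose l hl e using h
  refine ⟨∑ j ∈ Finset.range (n + 1), ((wPoly n B j).coeff i) • l j,
    Submodule.sum_mem _ fun j _ => Submodule.smul_mem _ _ (hl j), fun f => ?_⟩
  rw [coeff_polyAct, LinearMap.sum_apply]
  refine Finset.sum_congr rfl fun j _ => ?_
  rw [e, LinearMap.smul_apply, zsmul_eq_mul]

lemma congr (h : IntVal Φ) (e : ∀ f, Ψ f = Φ f) : IntVal Ψ := by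
  have : Ψ = Φ := funext e
  rwa [this]

end IntVal

lemma Q_T {φ : ℍ → ℂ} (h : Adm n φ) : Q n φ ModularGroup.T = 0 := by
  apply evalFun_injective
  have h1 : (mapGL ℝ ModularGroup.T) 1 0 = 0 := by
    rw [(isInt_mapGL _).apply]
    simp [ModularGroup.T]
  have h2 := h.EIof_slash_upper (δ := mapGL ℝ ModularGroup.T)
    (by rw [det_mapGL_val]; exact one_pos) h1
  rw [det_mapGL_val] at h2
  simp only [Complex.ofReal_one, one_pow, one_smul] at h2
  rw [h.evalFun_Q, evalFun_zero, SL_slash', SL_slash', h2, sub_self]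

/-- Claim A: all period polynomials are integral with respect to the lattice. -/
lemma intVal_Q (γ γ₀ : SL(2, ℤ)) :
    IntVal (fun f : CuspForm (Gamma0 N) ((n : ℤ) + 2) => Q n ((⇑f) ∣[(n : ℤ) + 2] γ₀) γ) := by
  have hγ : γ ∈ Subgroup.closure {ModularGroup.S, ModularGroup.T} := by
    rw [SpecialLinearGroup.SL2Z_generators]; trivial
  induction hγ using Subgroup.closure_induction generalizing γ₀ with
  | mem x hx =>
    rcases hx with rfl | hx
    · intro i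
      by_cases hi : i < n + 1
      · exact ⟨_, lam_S_mem γ₀ hi, fun f => rfl⟩
      · refine ⟨0, zero_mem _, fun f => ?_⟩
        have := ((adm_cusp f).slash γ₀).Q_mem ModularGroup.S
        rw [mem_degreeLT] at this
        rw [LinearMap.zero_apply]
        refine coeff_eq_zero_of_degree_lt (lt_of_lt_of_le this ?_)
        exact_mod_cast not_lt.mp hi
    · rw [Set.mem_singleton_iff] at hx
      subst hx
      exact IntVal.zero'.congr fun f => Q_T ((adm_cusp f).slash γ₀)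
  | one => exact IntVal.zero'.congr fun f => ((adm_cusp f).slash γ₀).Q_one
  | mul x y _ _ hx hy =>
    refine (((hx γ₀).polyAct (y : Matrix (Fin 2) (Fin 2) ℤ)).add (hy (γ₀ * x))).congr fun f => ?_
    rw [((adm_cusp f).slash γ₀).Q_mul, SlashAction.slash_mul]
  | inv x _ hx =>
    refine (((hx (γ₀ * x⁻¹)).polyAct ((x⁻¹ : SL(2, ℤ)) : Matrix (Fin 2) (Fin 2) ℤ)).neg).congr
      fun f => ?_
    have h1 := ((adm_cusp f).slash (γ₀ * x⁻¹)).Q_mul x x⁻¹
    rw [mul_inv_cancel, ((adm_cusp f).slash (γ₀ * x⁻¹)).Q_one, ← SlashAction.slash_mul,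
      inv_mul_cancel_right] at h1
    exact eq_neg_of_add_eq_zero_right h1.symm

/-- Claim B. -/
lemma intVal_Q_good {g : GL (Fin 2) ℝ} (hg : Good g) (γ : SL(2, ℤ)) :
    IntVal (fun f : CuspForm (Gamma0 N) ((n : ℤ) + 2) => Q n ((⇑f) ∣[(n : ℤ) + 2] g) γ) := by
  obtain ⟨γ₀, δ, hδ, hc, e⟩ := hg.exists_decomp
  obtain ⟨γ', δ', ⟨B', hB', hd'⟩, hc', e'⟩ := (hδ.mul (good_mapGL γ)).exists_decomp
  have hδ' : Good δ' := ⟨B', hB', hd'⟩
  refine ((intVal_Q γ' γ₀).polyAct B').congr fun f => ?_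
  rw [e, SlashAction.slash_mul]
  exact ((adm_cusp f).slash γ₀).Q_upper hδ hc hB' hδ'.det_pos hc' e'

/-- Claim C: Hecke stability. -/
lemma comp_mem_Lam0 {ι : Type*} (s : Finset ι) (g : ι → GL (Fin 2) ℝ) (hg : ∀ i ∈ s, Good (g i))
    (t : CuspForm (Gamma0 N) ((n : ℤ) + 2) →ₗ[ℂ] CuspForm (Gamma0 N) ((n : ℤ) + 2))
    (ht : ∀ f, ⇑(t f) = ∑ i ∈ s, (⇑f) ∣[(n : ℤ) + 2] g i)
    {l : CuspForm (Gamma0 N) ((n : ℤ) + 2) →ₗ[ℂ] ℂ} (hl : l ∈ Lam0 N n) :
    l ∘ₗ t ∈ Lam0 N n := by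
  unfold Lam0 at hl
  induction hl using Submodule.span_induction with
  | mem x hx =>
    obtain ⟨⟨q, j⟩, rfl⟩ := hx
    simp only
    set γ₀ : SL(2, ℤ) := (q.out)⁻¹ with hγ₀
    have key : IntVal (fun f : CuspForm (Gamma0 N) ((n : ℤ) + 2) =>
        ∑ i ∈ s, Q n ((⇑f) ∣[(n : ℤ) + 2] (g i * mapGL ℝ γ₀)) ModularGroup.S) :=
      IntVal.sum s fun i hi => intVal_Q_good ((hg i hi).mul (good_mapGL γ₀)) _
    obtain ⟨l', hl', e⟩ := key j
    have : lam N n γ₀ ModularGroup.S j ∘ₗ t = l' := by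
      ext f
      rw [← e, LinearMap.comp_apply, lam_apply, ht, SlashAction.sum_slash]
      have h1 : ∀ i ∈ s, ((⇑f) ∣[(n : ℤ) + 2] g i) ∣[(n : ℤ) + 2] γ₀ =
          (⇑f) ∣[(n : ℤ) + 2] (g i * mapGL ℝ γ₀) := fun i _ => by
        rw [SlashAction.slash_mul, SL_slash']
      rw [Finset.sum_congr rfl h1, Adm.Q_sum]
      intro i hi
      exact (adm_cusp f).slash_good ((hg i hi).mul (good_mapGL γ₀))
    rw [this]
    exact hl'
  | zero => simp
  | add x y _ _ hx hy =>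
    rw [LinearMap.add_comp]
    exact add_mem hx hy
  | smul a x _ hx =>
    rw [LinearMap.smul_comp]
    exact Submodule.smul_mem _ _ hx

end

end Fermat.Agent.S22.PP
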