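import Fermat.Agent.S22.PP.Bol2

set_option autoImplicit false

open UpperHalfPlane Derivative Polynomial
open scoped MatrixGroups ModularForm Manifold Topology Real

namespace Fermat.Agent.S22.PP

noncomputable section

lemma mdiff_of_differentiableOn {G : ℂ → ℂ} (hG : DifferentiableOn ℂ G {z | 0 < z.im}) :
    MDiff (fun τ : ℍ => G τ) := by
  rw [UpperHalfPlane.mdifferentiable_iff]
  refine hG.congr ?_
  intro z hz
  simp [ofComplex_apply_of_im_pos hz]

/-- A polynomial viewed as a function on the upper half plane. -/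
def evalFun (p : ℂ[X]) : ℍ → ℂ := fun τ => p.eval (τ : ℂ)

lemma evalFun_apply (p : ℂ[X]) (τ : ℍ) : evalFun p τ = p.eval (τ : ℂ) := rfl

lemma evalFun_add (p q : ℂ[X]) : evalFun (p + q) = evalFun p + evalFun q := by
  ext τ; simp [evalFun]

lemma evalFun_sub (p q : ℂ[X]) : evalFun (p - q) = evalFun p - evalFun q := by
  ext τ; simp [evalFun]

lemma evalFun_neg (p : ℂ[X]) : evalFun (-p) = -evalFun p := by
  ext τ; simp [evalFun]

lemma evalFun_smul (c : ℂ) (p : ℂ[X]) : evalFun (c • p) = c • evalFun p := by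
  ext τ; simp [evalFun]

lemma evalFun_zero : evalFun 0 = 0 := by
  ext τ; simp [evalFun]

lemma mdiff_evalFun (p : ℂ[X]) : MDiff (evalFun p) :=
  mdiff_of_differentiableOn (G := fun z => p.eval z) p.differentiable.differentiableOn

lemma D_evalFun (p : ℂ[X]) :
    D (evalFun p) = (2 * π * Complex.I)⁻¹ • evalFun (derivative p) := by
  ext τ
  exact D_of_hasDerivAt (G := fun z => p.eval z) τ (p.hasDerivAt _)

lemma two_pi_I_ne : (2 * π * Complex.I : ℂ) ≠ 0 := Complex.two_pi_I_ne_zero

lemma const_of_D_eq_zero {Ψ : ℍ → ℂ} (h : MDiff Ψ) (h0 : D Ψ = 0) : ∃ c : ℂ, Ψ = fun _ => c := by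
  refine ⟨Ψ I, ?_⟩
  ext τ
  rw [UpperHalfPlane.mdifferentiable_iff] at h
  have hpre : IsPreconnected {z : ℂ | 0 < z.im} :=
    (Complex.isConnected_of_upperHalfPlane subset_rfl (by grind)).isPreconnected
  have hder : Set.EqOn (deriv (Ψ ∘ ofComplex)) 0 {z : ℂ | 0 < z.im} := by
    intro z hz
    have := congrFun h0 ⟨z, hz⟩
    simp only [normalizedDerivOfComplex, Pi.zero_apply] at this
    rcases mul_eq_zero.mp this with h1 | h1
    · exact absurd (inv_eq_zero.mp h1) two_pi_I_ne
    · simpa using h1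
  have := isOpen_upperHalfPlaneSet.is_const_of_deriv_eq_zero hpre h hder τ.im_pos I.im_pos
  simpa only [Function.comp_apply, ofComplex_apply] using this

lemma exists_antideriv (m : ℕ) {p : ℂ[X]} (hp : p ∈ degreeLT ℂ m) :
    ∃ q ∈ degreeLT ℂ (m + 1), derivative q = p := by
  refine ⟨∑ i ∈ Finset.range m, monomial (i + 1) (p.coeff i / ((i : ℂ) + 1)), ?_, ?_⟩
  · refine Submodule.sum_mem _ fun i hi => ?_
    rw [mem_degreeLT]
    refine lt_of_le_of_lt (degree_monomial_le _ _) ?_
    have := Finset.mem_range.mp hi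
    exact_mod_cast Nat.succ_lt_succ this
  · rw [derivative_sum]
    have hdeg : p.degree < m := mem_degreeLT.mp hp
    have e : ∀ i ∈ Finset.range m,
        derivative (monomial (i + 1) (p.coeff i / ((i : ℂ) + 1))) = monomial i (p.coeff i) := by
      intro i _
      rw [derivative_monomial]
      have : ((i : ℂ) + 1) ≠ 0 := by exact_mod_cast Nat.succ_ne_zero i
      congr 1
      push_cast
      field_simp
    rw [Finset.sum_congr rfl e]
    ext j
    rw [finsetSum_coeff]
    simp only [coeff_monomial, Finset.sum_ite_eq', Finset.mem_range]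
    split_ifs with hj
    · rfl
    · refine (coeff_eq_zero_of_degree_lt (lt_of_lt_of_le hdeg ?_)).symm
      exact_mod_cast not_lt.mp hj

lemma poly_of_iter_eq_zero (m : ℕ) : ∀ {Ψ : ℍ → ℂ}, MDiff Ψ → D^[m] Ψ = 0 →
    ∃ p ∈ degreeLT ℂ m, Ψ = evalFun p := by
  induction m with
  | zero =>
    intro Ψ _ h0
    exact ⟨0, Submodule.zero_mem _, by simpa [evalFun_zero] using h0⟩
  | succ m ih =>
    intro Ψ h h0
    rw [Function.iterate_succ_apply] at h0
    obtain ⟨p, hp, hpe⟩ := ih (normalizedDerivOfComplex_mdifferentiable h) h0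
    obtain ⟨q, hq, hqp⟩ := exists_antideriv m hp
    have hq' : MDiff (evalFun ((2 * π * Complex.I) • q)) := mdiff_evalFun _
    have h1 : D (Ψ - evalFun ((2 * π * Complex.I) • q)) = 0 := by
      rw [normalizedDerivOfComplex_sub _ _ h hq', D_evalFun, hpe, derivative_smul, hqp,
        evalFun_smul, smul_smul, inv_mul_cancel₀ two_pi_I_ne, one_smul, sub_self]
    obtain ⟨c, hc⟩ := const_of_D_eq_zero (h.sub hq') h1
    refine ⟨(2 * π * Complex.I) • q + C c, ?_, ?_⟩
    · refine Submodule.add_mem _ (Submodule.smul_mem _ _ hq) ?_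
      rw [mem_degreeLT]
      refine lt_of_le_of_lt degree_C_le ?_
      exact_mod_cast Nat.succ_pos m
    · ext τ
      have := congrFun hc τ
      simp only [Pi.sub_apply] at this
      rw [evalFun_add, Pi.add_apply, sub_eq_iff_eq_add'.mp this]
      simp [evalFun]

lemma evalFun_injective : Function.Injective evalFun := by
  intro p q h
  refine Polynomial.eq_of_infinite_eval_eq p q ?_
  have hinf : (Set.range fun n : ℕ => ((n : ℂ) + Complex.I)).Infinite := by
    refine Set.infinite_range_of_injective ?_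
    intro a b hab
    simpa using hab
  refine hinf.mono ?_
  rintro _ ⟨n, rfl⟩
  have := congrFun h ⟨(n : ℂ) + Complex.I, by simp⟩
  simpa [evalFun] using this

lemma eq_zero_of_isZeroAtImInfty {p : ℂ[X]} (h : IsZeroAtImInfty (evalFun p)) : p = 0 := by
  have htend : Filter.Tendsto (fun t : ℝ => ofComplex (Complex.I * t)) Filter.atTop atImInfty := by
    rw [atImInfty, Filter.tendsto_comap_iff]
    refine Filter.tendsto_id.congr' ?_
    filter_upwards [Filter.eventually_gt_atTop 0] with t ht
    simp [ofComplex_apply_of_im_pos, ht, ← coe_im]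
  have h1 : Filter.Tendsto (fun t : ℝ => p.eval (Complex.I * t)) Filter.atTop (𝓝 0) := by
    refine (h.comp htend).congr' ?_
    filter_upwards [Filter.eventually_gt_atTop 0] with t ht
    simp [evalFun, ofComplex_apply_of_im_pos, ht]
  by_cases hdeg : 0 < p.degree
  · exfalso
    have hz : Filter.Tendsto (fun t : ℝ => ‖Complex.I * (t : ℂ)‖) Filter.atTop Filter.atTop := by
      simpa using Filter.tendsto_abs_atTop_atTop
    have h2 := p.tendsto_norm_atTop hdeg hz
    have h3 := h1.norm
    simp only [norm_zero] at h3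
    exact not_tendsto_nhds_of_tendsto_atTop h2 _ h3
  · rw [not_lt] at hdeg
    rw [eq_C_of_degree_le_zero hdeg] at h1 ⊢
    simp only [eval_C] at h1
    have h0 : p.coeff 0 = 0 := tendsto_nhds_unique tendsto_const_nhds h1
    rw [h0, C_0]

end

end Fermat.Agent.S22.PP
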