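import Fermat.Agent.S22.PP.Poly

set_option autoImplicit false

open UpperHalfPlane Derivative Polynomial Function
open scoped MatrixGroups ModularForm Manifold Topology Real

namespace Fermat.Agent.S22.PP

noncomputable section

local notation "𝕢" => Periodic.qParam

/-- holomorphic, `h`-periodic, vanishing at `i∞`. -/
structure IsPer (h : ℝ) (φ : ℍ → ℂ) : Prop where
  mdiff : MDiff φ
  per : Periodic (φ ∘ ofComplex) h
  zero : IsZeroAtImInfty φ

lemma hasDerivAt_qParam (h : ℝ) (z : ℂ) :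
    HasDerivAt (𝕢 h) (𝕢 h z * (2 * π * Complex.I / h)) z := by
  unfold Periodic.qParam
  have h1 : HasDerivAt (fun z : ℂ => 2 * π * Complex.I * z / h) (2 * π * Complex.I / h) z := by
    simpa using ((hasDerivAt_id z).const_mul (2 * π * Complex.I)).div_const (h : ℂ)
  exact h1.cexp

lemma qParam_add_period {h : ℝ} (hh : h ≠ 0) (w : ℂ) : 𝕢 h (w + h) = 𝕢 h w := by
  unfold Periodic.qParam
  have hh' : (h : ℂ) ≠ 0 := by exact_mod_cast hh
  rw [show 2 * π * Complex.I * (w + h) / h = 2 * π * Complex.I * w / h + 2 * π * Complex.I by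
    field_simp]
  exact Complex.exp_periodic _

lemma exists_primitive {h : ℝ} (hh : 0 < h) {φ : ℍ → ℂ} (hφ : IsPer h φ) :
    ∃ Φ, IsPer h Φ ∧ D Φ = φ := by
  set c := cuspFunction h φ with hc
  have hcd : DifferentiableOn ℂ c (Metric.ball 0 1) :=
    differentiableOn_cuspFunction_ball hh hφ.per hφ.mdiff hφ.zero.isBoundedAtImInfty
  have hc0 : c 0 = 0 := hφ.zero.cuspFunction_apply_zero hh
  have hψ : DifferentiableOn ℂ (dslope c 0) (Metric.ball 0 1) :=
    (Complex.differentiableOn_dslope (Metric.ball_mem_nhds _ one_pos)).mpr hcd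
  obtain ⟨G, hG0, hG⟩ := (hψ.isExactOn_ball).with_val_at 0 0
  have hq : ∀ z : ℂ, 0 < z.im → 𝕢 h z ∈ Metric.ball (0 : ℂ) 1 := fun z hz => by
    simpa using Periodic.norm_qParam_lt_one hh hz
  have hder : ∀ z : ℂ, 0 < z.im → HasDerivAt (fun z => (h : ℂ) * G (𝕢 h z))
      ((h : ℂ) * (dslope c 0 (𝕢 h z) * (𝕢 h z * (2 * π * Complex.I / h)))) z := fun z hz =>
    ((hG _ (hq z hz)).comp z (hasDerivAt_qParam h z)).const_mul _
  refine ⟨fun τ : ℍ => (h : ℂ) * G (𝕢 h τ), ⟨?_, ?_, ?_⟩, ?_⟩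
  · exact mdiff_of_differentiableOn (G := fun z => (h : ℂ) * G (𝕢 h z))
      fun z hz => (hder z hz).differentiableAt.differentiableWithinAt
  · intro w
    by_cases hw : 0 < w.im
    · have hw' : 0 < (w + h).im := by simpa using hw
      simp only [comp_apply, ofComplex_apply_of_im_pos hw', ofComplex_apply_of_im_pos hw]
      congr 2
      exact qParam_add_period hh.ne' w
    · have hw1 : w.im ≤ 0 := not_lt.mp hw
      have hw' : (w + h).im ≤ 0 := by simpa using hw1
      simp [ofComplex_apply_of_im_nonpos hw', ofComplex_apply_of_im_nonpos hw1]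
  · have hcont : ContinuousAt G 0 :=
      (hG 0 (Metric.mem_ball_self one_pos)).continuousAt
    have h1 : Filter.Tendsto (fun τ : ℍ => G (𝕢 h τ)) atImInfty (𝓝 (G 0)) :=
      hcont.tendsto.comp (qParam_tendsto_atImInfty hh)
    have h2 := h1.const_mul (h : ℂ)
    rw [hG0, mul_zero] at h2
    exact h2
  · ext τ
    rw [D_of_hasDerivAt (G := fun z => (h : ℂ) * G (𝕢 h z)) τ (hder τ τ.im_pos)]
    have h1 : (𝕢 h τ - 0) • dslope c 0 (𝕢 h τ) = c (𝕢 h τ) - c 0 := sub_smul_dslope c 0 _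
    rw [hc0, sub_zero, sub_zero, smul_eq_mul, hc, eq_cuspFunction τ hh.ne' hφ.per] at h1
    have hh' : (h : ℂ) ≠ 0 := by exact_mod_cast hh.ne'
    rw [← h1]
    have := two_pi_I_ne
    rw [← hc]
    field_simp

end

end Fermat.Agent.S22.PP
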